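import Fermat.Agent.S37.II.Defs
import Fermat.Agent.S37.Val
import Fermat.Agent.S27.Riemann.Bound
import Fermat.Agent.S18.Chart.Const
import Fermat.Agent.S18.Chart.Unif

/-!
# S37 route II, skeleton, part A: abstract blocks (no modular curves)
WIP file: statements only.
-/

set_option autoImplicit false

noncomputable section

namespace Fermat.Agent.S37.II.WIP

open AlgebraicCurve Fermat.Agent.S24 Fermat.Agent.S18 IntermediateField Polynomial
open Fermat.Agent.S37.II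

/-! ## RL : rigidity lemma.  File `S37/II/Rigidity.lean` -/
section RL

variable {K F : Type*} [Field K] [Field F] [Algebra K F] [CharZero K] [IsAlgClosed K] [FF.IsFF1 K F]

theorem rigidity_int (hF : ∃ x : F, Transcendental K x) (E : Divisor K F →+ ℤ) (C : ℤ)
    (hC : ∀ v : Place K F, |E (Finsupp.single v 1)| ≤ C)
    (hP : ∀ D ∈ Divisor.principal (K := K) (F := F), E D = 0)
    (D : Divisor K F) (hD : Divisor.degree D = 0) : E D = 0 := by
  sorry

theorem rigidity (hF : ∃ x : F, Transcendental K x) {Y : Type*} (E : Divisor K F →+ (Y →₀ ℤ))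
    (C : ℤ) (hC : ∀ (v : Place K F) (y : Y), |E (Finsupp.single v 1) y| ≤ C)
    (hP : ∀ D ∈ Divisor.principal (K := K) (F := F), E D = 0)
    (D : Divisor K F) (hD : Divisor.degree D = 0) : E D = 0 := by
  ext y
  exact rigidity_int hF ((Finsupp.applyAddHom y).comp E) C (fun v => hC v y)
    (fun D hD => by simp [hP D hD]) D hD

end RL

/-! ## TR : transport of `mapDomain _ D = 0`.  File `S37/II/Finsupp.lean` -/
section TR

theorem mapDomain_apply_eq_sum {α β : Type*} [DecidableEq β] (f : α → β) (D : α →₀ ℤ) (y : β) :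
    Finsupp.mapDomain f D y = ∑ a ∈ D.support.filter (fun a => f a = y), D a := by
  sorry

theorem mapDomain_eq_zero_iff_of_fiber {α β γ : Type*} (f : α → β) (g : α → γ) (D : α →₀ ℤ)
    (h : ∀ a ∈ D.support, ∀ a' ∈ D.support, f a = f a' ↔ g a = g a') :
    Finsupp.mapDomain f D = 0 ↔ Finsupp.mapDomain g D = 0 := by
  sorry

end TR

/-! ## VR : values at rational places.  File `S37/II/ValRat.lean`
(port of `S37/Val.lean`, with `[IsAlgClosed K] [IsFF1 K F]` replaced by `hv : IsRat v`) -/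
section VR

variable {K F : Type*} [Field K] [Field F] [Algebra K F]

theorem isRat_of_isAlgClosed [IsAlgClosed K] [FF.IsFF1 K F] (v : Place K F) : IsRat v := by
  sorry

theorem val_spec_rat {v : Place K F} (hv : IsRat v) {f : F} (h : 0 ≤ v.ord f) :
    f = algebraMap K F (val v f) ∨ 0 < v.ord (f - algebraMap K F (val v f)) := by
  sorry

theorem val_add_rat {v : Place K F} (hv : IsRat v) {f g : F} (hf : 0 ≤ v.ord f)
    (hg : 0 ≤ v.ord g) : val v (f + g) = val v f + val v g := by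
  sorry

theorem val_sub_rat {v : Place K F} (hv : IsRat v) {f g : F} (hf : 0 ≤ v.ord f)
    (hg : 0 ≤ v.ord g) : val v (f - g) = val v f - val v g := by
  sorry

theorem val_mul_rat {v : Place K F} (hv : IsRat v) {f g : F} (hf : 0 ≤ v.ord f)
    (hg : 0 ≤ v.ord g) : val v (f * g) = val v f * val v g := by
  sorry

theorem val_eq_zero_iff_rat {v : Place K F} (hv : IsRat v) {f : F} (h : 0 ≤ v.ord f) :
    val v f = 0 ↔ f = 0 ∨ 0 < v.ord f := by
  sorry

theorem val_inv_rat {v : Place K F} (hv : IsRat v) {f : F} (h : v.ord f = 0) :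
    val v f⁻¹ = (val v f)⁻¹ := by
  sorry

theorem resV_of_mem (A : ValuationSubring K) {c : K} (h : c ∈ A) :
    resV A c = IsLocalRing.residue A ⟨c, h⟩ := by
  sorry

theorem resV_eq_zero_iff (A : ValuationSubring K) {c : K} (h : c ∈ A) :
    resV A c = 0 ↔ c ∈ A.nonunits := by
  sorry

theorem resV_eq_iff (A : ValuationSubring K) {c c' : K} (h : c ∈ A) (h' : c' ∈ A) :
    resV A c = resV A c' ↔ c - c' ∈ A.nonunits := by
  sorry

/-- functions integral over `A[z]` take values in `A` at the rational places with `z(v) ∈ A`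
(the composite valuation ring `{f | f regular at v, f(v) ∈ A}` is integrally closed) -/
theorem val_mem_of_mem_chart (A : ValuationSubring K) (z : F) (v : Place K F) (hv : IsRat v)
    (h : InFin A z v) : ∀ b ∈ chart A.toSubring z, 0 ≤ v.ord b ∧ val v b ∈ A := by
  sorry

/-- outside the finite region `x⁻¹` is regular and takes a value in the maximal ideal -/
theorem inv_of_not_inFin (A : ValuationSubring K) (x : F) (v : Place K F) (hv : IsRat v)
    (h : ¬ InFin A x v) : 0 ≤ v.ord x⁻¹ ∧ val v x⁻¹ ∈ A.nonunits := by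
  sorry

end VR

/-! ## FL : the finite level theorem -/
section FL

variable {K F : Type*} [Field K] [Field F] [Algebra K F]

variable {A : ValuationSubring K} {ϖ₀ : K} {Ow : ValuationSubring F}

/-- **L0** File `S37/II/Local/Through.lean`. -/
theorem through_of_centered {B : Subring F} {𝔫 : Ideal B} {w : Place K F}
    (h : Centered A B 𝔫 w) : Through B 𝔫 w := by
  sorry

/-- **L2a** (local uniformiser).  File `S37/II/Local/Unif.lean`. -/
theorem exists_local_unif [CharZero K] [FF.IsFF1 K F] (h₀ : IsUnif A ϖ₀)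
    (hw : IsUnif Ow (algebraMap K F ϖ₀)) {B : Subring F}
    (hB : IsChart Ow (algebraMap K F ϖ₀) B) (hAB : ∀ a ∈ A, algebraMap K F a ∈ B)
    (𝔫 : Ideal B) (h𝔫 : 𝔫.IsMaximal) (hϖ : (⟨_, hB.unif_mem⟩ : B) ∈ 𝔫) :
    ∃ t : B, t ∈ 𝔫 ∧ ∀ w : Place K F, Centered A B 𝔫 w →
      (t : F) / algebraMap K F ϖ₀ ∉ Ow ∧
      w.ord ((t : F) - algebraMap K F (val w (t : F))) = 1 ∧
      ∀ w' : Place K F, Through B 𝔫 w' →
        0 < w'.ord ((t : F) - algebraMap K F (val w (t : F))) → w' = w := by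
  sorry

/-- **L2b** (unit criterion).  File `S37/II/Local/Unit.lean`. -/
theorem exists_unit_of_through [CharZero K] [FF.IsFF1 K F] (h₀ : IsUnif A ϖ₀)
    (hw : IsUnif Ow (algebraMap K F ϖ₀)) {B : Subring F}
    (hB : IsChart Ow (algebraMap K F ϖ₀) B) (hAB : ∀ a ∈ A, algebraMap K F a ∈ B)
    (𝔫 : Ideal B) (h𝔫 : 𝔫.IsMaximal) (hϖ : (⟨_, hB.unif_mem⟩ : B) ∈ 𝔫)
    (u : F) (hu0 : u ≠ 0) (hu : u ∈ Ow) (hu' : u⁻¹ ∈ Ow)
    (h : ∀ w : Place K F, Through B 𝔫 w → w.ord u = 0) :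
    ∃ a b : B, a ∉ 𝔫 ∧ b ∉ 𝔫 ∧ u * (b : F) = (a : F) := by
  sorry

/-- **L2** (local sum formula).  File `S37/II/Local/Sum.lean`. -/
theorem local_sum [CharZero K] [FF.IsFF1 K F] (h₀ : IsUnif A ϖ₀)
    (hw : IsUnif Ow (algebraMap K F ϖ₀)) {B : Subring F}
    (hB : IsChart Ow (algebraMap K F ϖ₀) B) (hAB : ∀ a ∈ A, algebraMap K F a ∈ B)
    (𝔫 : Ideal B) (h𝔫 : 𝔫.IsMaximal) (hϖ : (⟨_, hB.unif_mem⟩ : B) ∈ 𝔫)
    (s : Finset (Place K F)) (hs : ∀ w ∈ s, Centered A B 𝔫 w)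
    (u : F) (hu0 : u ≠ 0) (hu : u ∈ Ow) (hu' : u⁻¹ ∈ Ow)
    (hall : ∀ w : Place K F, Through B 𝔫 w → w.ord u ≠ 0 → w ∈ s) :
    ∑ w ∈ s, w.ord u = 0 ↔
      ∃ a b : B, a ∉ 𝔫 ∧ b ∉ 𝔫 ∧ (u * (b : F) - (a : F)) / algebraMap K F ϖ₀ ∈ Ow := by
  sorry

/-- **L1** (the centre of a rational place).  File `S37/II/Center.lean`. -/
theorem exists_center (h₀ : IsUnif A ϖ₀) (z : F) (w : Place K F) (hw : IsRat w)
    (h : InFin A z w) :
    ∃ 𝔫 : Ideal (chart A.toSubring z), 𝔫.IsMaximal ∧ Centered A (chart A.toSubring z) 𝔫 w := by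
  sorry

/-- **L1'** (a rational place through `𝔫` is centred at `𝔫`).  File `S37/II/Center.lean`. -/
theorem centered_of_through (h₀ : IsUnif A ϖ₀) (z : F)
    (𝔫 : Ideal (chart A.toSubring z)) (h𝔫 : 𝔫.IsMaximal)
    (hϖ : ∀ b : chart A.toSubring z, (b : F) = algebraMap K F ϖ₀ → b ∈ 𝔫)
    (w : Place K F) (hw : IsRat w) (h : Through (chart A.toSubring z) 𝔫 w) :
    InFin A z w ∧ Centered A (chart A.toSubring z) 𝔫 w := by
  sorry

/-- **L3** (same centre = same reduction).  File `S37/II/Center.lean`. -/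
theorem resV_val_eq_of_centered (z : F) (𝔫 : Ideal (chart A.toSubring z)) {w w' : Place K F}
    (h : Centered A (chart A.toSubring z) 𝔫 w) (h' : Centered A (chart A.toSubring z) 𝔫 w')
    (b : chart A.toSubring z) : resV A (val w (b : F)) = resV A (val w' (b : F)) := by
  sorry

/-- **G1** (local integrality implies integrality modulo `ϖ`).  File `S37/II/Global.lean`. -/
theorem exists_mem_chart_of_local {ϖ : F} (hw : IsUnif Ow ϖ) {B : Subring F}
    (hB : IsChart Ow ϖ B) (u : F) (hu : u ∈ Ow)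
    (h : ∀ 𝔫 : Ideal B, 𝔫.IsMaximal → (⟨_, hB.unif_mem⟩ : B) ∈ 𝔫 →
      ∃ a b : B, b ∉ 𝔫 ∧ (u * (b : F) - (a : F)) / ϖ ∈ Ow) :
    ∃ b : B, (u - (b : F)) / ϖ ∈ Ow := by
  sorry

/-- **G2** (a function on the special fibre regular on both charts is constant).
File `S37/II/Global.lean`. -/
theorem exists_monic_of_mem_both {x : F} (hM : GoodModel A x ϖ₀ Ow)
    (b₁ : chart A.toSubring x) (b₂ : chart A.toSubring x⁻¹)
    (h : ((b₁ : F) - (b₂ : F)) / algebraMap K F ϖ₀ ∈ Ow) :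
    ∃ p : K[X], p.Monic ∧ (∀ i, p.coeff i ∈ A) ∧
      aeval (b₁ : F) p / algebraMap K F ϖ₀ ∈ Ow := by
  sorry

/-- **FL1**.  File `S37/II/Finite.lean`. -/
theorem redDiv_eq_zero_of_sub_one [CharZero K] [FF.IsFF1 K F] {x : F}
    (hM : GoodModel A x ϖ₀ Ow) (u : F) (hu : (u - 1) / algebraMap K F ϖ₀ ∈ Ow)
    (D : Divisor K F) (hD : ∀ v, D v = v.ord u) (hrat : ∀ v ∈ D.support, IsRat v) :
    redDiv A x D = 0 := by
  sorry

/-- **FL0**.  File `S37/II/Finite.lean`. -/
theorem exists_monic_of_redDiv_eq_zero [CharZero K] [FF.IsFF1 K F] {x : F}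
    (hM : GoodModel A x ϖ₀ Ow) (u : F) (hu : u ≠ 0)
    (D : Divisor K F) (hD : ∀ v, D v = v.ord u) (hrat : ∀ v ∈ D.support, IsRat v)
    (h : redDiv A x D = 0) :
    ∃ (k : ℤ) (p : K[X]), p.Monic ∧ (∀ i, p.coeff i ∈ A) ∧
      u / algebraMap K F ϖ₀ ^ k ∈ Ow ∧ (u / algebraMap K F ϖ₀ ^ k)⁻¹ ∈ Ow ∧
      aeval (u / algebraMap K F ϖ₀ ^ k) p / algebraMap K F ϖ₀ ∈ Ow := by
  sorry

end FL

end Fermat.Agent.S37.II.WIP

end
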