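import Fermat.Agent.S37.II.WIP.SkeletonA
import Fermat.Agent.S37.II.DefsMod
import Fermat.Agent.S37.Statements
import Fermat.Agent.S18.Descent.HorizontalBC
import Fermat.Agent.S18.Descent.FF1
import Fermat.Agent.S18.Descent.Series
import Fermat.Agent.S37.HeckeInputs.Main

/-!
# S37 route II, skeleton, part B: descent to number fields, the theorem
`redDiv (div f) = 0 ↔ IsOne f` over `ℚ̄`.
WIP file: statements only.
-/

set_option autoImplicit false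

noncomputable section

namespace Fermat.Agent.S37.II.WIP

open AlgebraicCurve ModularCurve Fermat.Agent.S24 Fermat.Agent.S18 IntermediateField Polynomial
open Fermat.Agent.S37.HeckeInputs Fermat.Agent.S37.II

/-! ## DP0 : calculus of `Ev`.  File `S37/II/Descent/Ev.lean` -/

theorem ev_and {p q : IntermediateField ℚ Kbar → Prop} (hp : Ev p) (hq : Ev q) :
    Ev fun K₁ => p K₁ ∧ q K₁ := by
  sorry

theorem ev_mono {p q : IntermediateField ℚ Kbar → Prop} (hp : Ev p) (h : ∀ K₁, p K₁ → q K₁) :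
    Ev q := by
  sorry

theorem ev_finset {ι : Type*} (s : Finset ι) {p : ι → IntermediateField ℚ Kbar → Prop}
    (hp : ∀ i ∈ s, Ev (p i)) : Ev fun K₁ => ∀ i ∈ s, p i K₁ := by
  sorry

theorem ev_exists_finite {p : IntermediateField ℚ Kbar → Prop} (hp : Ev p) :
    ∃ K₁ : IntermediateField ℚ Kbar, FiniteDimensional ℚ K₁ ∧ p K₁ := by
  obtain ⟨K₀, h, hK⟩ := hp
  exact ⟨K₀, h, hK K₀ le_rfl⟩

theorem ev_mem (c : Kbar) : Ev fun K₁ => c ∈ K₁ := by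
  sorry

theorem ev_defined (M : ℕ) (t : FN M) : Ev fun K₁ => ∃ t₁ : FK K₁ M, tb M K₁ t₁ = t := by
  sorry

/-! ## DP1 : a Galois-fixed place is rational.  File `S37/II/Descent/Rational.lean` -/

theorem exists_ratOver (M : ℕ) [NeZero M] (K₁ : IntermediateField ℚ Kbar) (P : Pl M)
    (ht : ∃ t₁ : FK K₁ M, P.ord (tb M K₁ t₁) = 1)
    (hfix : ∀ σ : Kbar ≃ₐ[ℚ] Kbar, (∀ c ∈ K₁, σ c = c) → gal M σ • P = P) :
    ∃ w : Place K₁ (FK K₁ M), RatOver M K₁ P w := by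
  sorry

/-! ## DP2 : the stabiliser of a zero or pole is open.  File `S37/II/Descent/Stab.lean` -/

theorem exists_separator (M : ℕ) [NeZero M] {P P' : Pl M} (h : P ≠ P') :
    ∃ g : FN M, 0 < P.ord g ∧ P'.ord g ≤ 0 := by
  sorry

theorem smul_eq_of_separators (M : ℕ) [NeZero M] (K₁ : IntermediateField ℚ Kbar)
    (f₁ : FK K₁ M)
    (hsep : ∀ P P' : Pl M, P.ord (tb M K₁ f₁) ≠ 0 → P'.ord (tb M K₁ f₁) ≠ 0 → P ≠ P' →
      ∃ g₁ : FK K₁ M, 0 < P.ord (tb M K₁ g₁) ∧ P'.ord (tb M K₁ g₁) ≤ 0)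
    (σ : Kbar ≃ₐ[ℚ] Kbar) (hσ : ∀ c ∈ K₁, σ c = c) (P : Pl M) (hP : P.ord (tb M K₁ f₁) ≠ 0) :
    gal M σ • P = P := by
  sorry

/-! ## DP3 : comparison of the reductions.  File `S37/II/Descent/Red.lean` -/

section DP3

variable {M ℓ : ℕ} (B : BaseData M ℓ) (A : ValuationSubring Kbar)

theorem tb_xK (K₁ : IntermediateField ℚ Kbar) : tb M K₁ (B.xK K₁) = B.xK Kbar := by
  sorry

theorem tb_mem_chart (K₁ : IntermediateField ℚ Kbar) (z b : FK K₁ M)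
    (hb : b ∈ chart (rs A K₁).toSubring z) : tb M K₁ b ∈ chart A.toSubring (tb M K₁ z) := by
  sorry

theorem ev_mem_chart (K₀ : IntermediateField ℚ Kbar) (z : FK K₀ M) (b : FN M)
    (hb : b ∈ chart A.toSubring (tb M K₀ z)) :
    Ev fun K₁ => ∃ (z₁ b₁ : FK K₁ M), tb M K₁ z₁ = tb M K₀ z ∧ tb M K₁ b₁ = b ∧
      b₁ ∈ chart (rs A K₁).toSubring z₁ := by
  sorry

theorem resV_rs_eq_iff (K₁ : IntermediateField ℚ Kbar) (c c' : K₁) (hc : c ∈ rs A K₁)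
    (hc' : c' ∈ rs A K₁) :
    resV (rs A K₁) c = resV (rs A K₁) c' ↔
      resV A (algebraMap K₁ Kbar c) = resV A (algebraMap K₁ Kbar c') := by
  sorry

theorem inFin_iff_of_ratOver {K₁ : IntermediateField ℚ Kbar} {P : Pl M}
    {w : Place K₁ (FK K₁ M)} (h : RatOver M K₁ P w) (z : FK K₁ M) :
    InFin (rs A K₁) z w ↔ InFin A (tb M K₁ z) P := by
  sorry

theorem red_eq_iff_of_ratOver [NeZero M] {K₁ : IntermediateField ℚ Kbar} {P P' : Pl M}
    {w w' : Place K₁ (FK K₁ M)} (h : RatOver M K₁ P w) (h' : RatOver M K₁ P' w')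
    (hsep₁ : (∃ b ∈ chart A.toSubring (B.xK Kbar), resV A (val P b) ≠ resV A (val P' b)) →
      ∃ b₁ ∈ chart (rs A K₁).toSubring (B.xK K₁),
        resV A (val P (tb M K₁ b₁)) ≠ resV A (val P' (tb M K₁ b₁)))
    (hsep₂ : (∃ b ∈ chart A.toSubring (B.xK Kbar)⁻¹, resV A (val P b) ≠ resV A (val P' b)) →
      ∃ b₁ ∈ chart (rs A K₁).toSubring (B.xK K₁)⁻¹,
        resV A (val P (tb M K₁ b₁)) ≠ resV A (val P' (tb M K₁ b₁))) :
    red A (B.xK Kbar) P = red A (B.xK Kbar) P' ↔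
      red (rs A K₁) (B.xK K₁) w = red (rs A K₁) (B.xK K₁) w' := by
  sorry

end DP3

/-! ## DP4 : the descent package.  File `S37/II/Descent/Main.lean` -/

theorem exists_descent {M ℓ : ℕ} [NeZero M] (B : BaseData M ℓ) (A : ValuationSubring Kbar)
    (f : FN M) (hf : f ≠ 0) (D : Divisor Kbar (FN M)) (hD : ∀ v, D v = v.ord f)
    (T : Finset (FN M)) :
    ∃ (K₁ : IntermediateField ℚ Kbar) (_ : FiniteDimensional ℚ K₁) (f₁ : FK K₁ M)
      (D₁ : Divisor K₁ (FK K₁ M)),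
      tb M K₁ f₁ = f ∧ (∀ t ∈ T, ∃ t₁ : FK K₁ M, tb M K₁ t₁ = t) ∧
      (∀ v : Place K₁ (FK K₁ M), D₁ v = v.ord f₁) ∧
      (∀ v ∈ D₁.support, IsRat v) ∧
      (redDiv A (B.xK Kbar) D = 0 ↔ redDiv (rs A K₁) (B.xK K₁) D₁ = 0) := by
  sorry

/-! ## C1 / C0 over `ℚ̄`.  Files `S37/II/Infinite/*.lean` -/

section Cinf

variable {M ℓ : ℕ} [NeZero M] (B : BaseData M ℓ) {A : ValuationSubring Kbar}

/-- **INF1a**: descent of `P / Q ≡ 1`.  File `S37/II/Infinite/One.lean` -/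
theorem sub_one_div_mem_of_tb (K₁ : IntermediateField ℚ Kbar) (ϖ₁ : K₁)
    (Ow : ValuationSubring (FK K₁ M)) (h₀ : IsUnif (rs A K₁) ϖ₁)
    (hG : IsGauss (rs A K₁) ϖ₁ (FK K₁ M) Ow)
    (P Q : LaurentSeries A) (hP : coeffMap A.subtype P ∈ modularFunctionFieldBar M)
    (hQ : coeffMap A.subtype Q ∈ modularFunctionFieldBar M)
    (hPQ : rho A P = rho A Q) (hQ0 : rho A Q ≠ 0) (p₁ q₁ : FK K₁ M)
    (hp : tb M K₁ p₁ = ⟨_, hP⟩) (hq : tb M K₁ q₁ = ⟨_, hQ⟩) :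
    (p₁ / q₁ - 1) / algebraMap K₁ (FK K₁ M) ϖ₁ ∈ Ow := by
  sorry

/-- **INF1** (= C1).  File `S37/II/Infinite/One.lean` -/
theorem redDiv_eq_zero_of_isOne (hG : GoodAt A B) (e : FN M) (he : IsOne A M e)
    (D : Divisor Kbar (FN M)) (hD : ∀ v, D v = v.ord e) : redDiv A (B.xK Kbar) D = 0 := by
  sorry

/-- **INF0a**: a unit of the Gauss valuation ring whose residue class is algebraic over the
residue field is congruent to a constant over `ℚ̄`.  File `S37/II/Infinite/Const.lean` -/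
theorem isOne_of_monic (K₁ : IntermediateField ℚ Kbar) (ϖ₁ : K₁)
    (Ow : ValuationSubring (FK K₁ M)) (h₀ : IsUnif (rs A K₁) ϖ₁)
    (hG : IsGauss (rs A K₁) ϖ₁ (FK K₁ M) Ow)
    (hquot : HasQuot A M K₁ Ow)
    (u : FK K₁ M) (hu : u ∈ Ow) (hu' : u⁻¹ ∈ Ow) (hu0 : u ≠ 0) (p : K₁[X]) (hp : p.Monic)
    (hpA : ∀ i, p.coeff i ∈ rs A K₁)
    (h : aeval u p / algebraMap K₁ (FK K₁ M) ϖ₁ ∈ Ow) : IsOne A M (tb M K₁ u) := by
  sorry

/-- **INF0** (= C0).  File `S37/II/Infinite/Const.lean` -/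
theorem isOne_of_redDiv_eq_zero (hG : GoodAt A B) (f : FN M) (hf : f ≠ 0)
    (D : Divisor Kbar (FN M)) (hD : ∀ v, D v = v.ord f) (h : redDiv A (B.xK Kbar) D = 0) :
    IsOne A M f := by
  sorry

end Cinf

end Fermat.Agent.S37.II.WIP

end
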