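import Fermat.Agent.S37.II.WIP.SkeletonB
import Fermat.Agent.S37.II.RedData
import Fermat.Agent.S37.Assembly
import Fermat.Agent.Lib.Frobenius
import Fermat.Agent.GAL.E.Exists
import Fermat.Agent.GAL.KLInputs.Main
import Fermat.Agent.S18.Export.IsChartBase
import Fermat.Agent.S18.Base.Bases

/-!
# S37 route II, skeleton, part C: from `redDiv (div f) = 0 ↔ IsOne f` to S37.
WIP file.
-/

set_option autoImplicit false

noncomputable section

namespace Fermat.Agent.S37.II.WIP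

open AlgebraicCurve ModularCurve Fermat.Agent.S24 Fermat.Agent.S18 IntermediateField Polynomial
open Fermat.Agent.S37.HeckeInputs Fermat.Agent.GAL.E Fermat.Agent.S37.II

/-! ## ONE : functions congruent to a constant.  File `S37/II/IsOne.lean` -/
section ONE

variable {A : ValuationSubring Kbar} {N : ℕ}

theorem isOne_ne_zero {e : FN N} (h : IsOne A N e) : e ≠ 0 := by
  sorry

theorem isOne_const_mul {e : FN N} (h : IsOne A N e) {c : Kbar} (hc : c ≠ 0) :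
    IsOne A N (algebraMap Kbar (FN N) c * e) := by
  sorry

theorem isOne_alpha [NeZero N] (r : ℕ) [NeZero r] {e : FN N} (h : IsOne A N e) :
    IsOne A (N * r) (heckeAlphaBar Kbar N r e) := by
  sorry

theorem isOne_inertia (ℓ : ℕ) (hℓ : ℓ.Prime) (hA : A.LiesOverPrime ℓ) (σ : GQ)
    (hσ : σ ∈ A.inertiaSubgroupIn ℚ) (u : FN N) (hu : u ≠ 0) :
    IsOne A N (galF N σ u * u⁻¹) := by
  sorry

theorem isOne_frobenius {ℓ : ℕ} [NeZero ℓ] (H : HeckeOp N ℓ) (hℓ : ℓ.Prime)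
    (hA : A.LiesOverPrime ℓ) (φ : GQ) (hφ : A.IsFrobeniusAt φ ℓ) (u : FN N) (hu : u ≠ 0) :
    IsOne A N (galF N φ (galF N φ u) * (H.T (galF N φ u))⁻¹ * u ^ ℓ) := by
  sorry

end ONE

/-! ## CORE : the three properties of `rr ρ`.  Files `S37/II/Core/*.lean` -/
section CORE

variable {A : ValuationSubring Kbar} {N ℓ : ℕ} [NeZero N] {Y : Type*}
  {ρ : Divisor Kbar (FN N) →+ (Y →₀ ℤ)}

/-- File `S37/II/Core/Inertia.lean` -/
theorem rr_inertia (h : RedData A N ℓ ρ) (hℓ : ℓ.Prime) (hA : A.LiesOverPrime ℓ)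
    (σ : Kbar ≃ₐ[ℚ] Kbar) (hσ : σ ∈ A.inertiaSubgroupIn ℚ) (x : JZero N) :
    rr ρ (σ • x) = rr ρ x := by
  sorry

/-- File `S37/II/Core/Frobenius.lean` -/
theorem rr_frobenius [NeZero ℓ] (h : RedData A N ℓ ρ) (hℓ : ℓ.Prime) (hℓN : ¬ ℓ ∣ N)
    (hA : A.LiesOverPrime ℓ) (φ : Kbar ≃ₐ[ℚ] Kbar) (hφ : A.IsFrobeniusAt φ ℓ) (x : JZero N) :
    rr ρ (φ • φ • x - heckeOperatorAlong Kbar N ℓ (φ • x) + ℓ • x) = 0 := by
  sorry

omit [NeZero N] in
/-- File `S37/II/Core/Injective.lean` -/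
theorem rr_injective (h : RedData A N ℓ ρ) (m : ℕ) (hm : ¬ ℓ ∣ m) (x : JZero N)
    (hx : m • x = 0) (hr : rr ρ x = 0) : x = 0 := by
  sorry

end CORE

/-! ## GOOD : the input from KL-A.  File `S37/II/GoodAt.lean` -/

theorem goodAt {M ℓ : ℕ} [NeZero M] [Fact ℓ.Prime] (hℓ : ¬ ℓ ∣ M) (B : BaseData M ℓ)
    (A : ValuationSubring Kbar) (hA : A.LiesOverPrime ℓ) : GoodAt A B := by
  sorry

/-! ## BASE : `RedData` at a level with a good coordinate.  File `S37/II/Base.lean` -/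

theorem redData_of_base {M ℓ : ℕ} [NeZero M] [Fact ℓ.Prime] (hℓ : ¬ ℓ ∣ M) (B : BaseData M ℓ)
    (A : ValuationSubring Kbar) (hA : A.LiesOverPrime ℓ) :
    RedData A M ℓ (redDiv A (B.xK Kbar)) := by
  sorry

/-! ## LEVEL : lowering the level.  File `S37/II/Level.lean` -/

theorem redData_pullback {A : ValuationSubring Kbar} {N ℓ r : ℕ} [NeZero N] [NeZero r]
    (hr : r.Prime) (hrN : ¬ r ∣ N) (hpow : ∃ k, r + 1 = ℓ ^ k) (hℓ : ℓ.Prime) {Y : Type*}
    {ρ : Divisor Kbar (FN (N * r)) →+ (Y →₀ ℤ)} (h : RedData A (N * r) ℓ ρ) :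
    RedData A N ℓ (ρ.comp (Divisor.pullbackAlong (heckeAlphaBar Kbar N r) (alpha_integral N r))) := by
  sorry

/-! ## MAIN.  File `S37/II/Main.lean` -/

theorem exists_redData (N ℓ : ℕ) [NeZero N] (hℓ : ℓ.Prime) (hℓN : ¬ ℓ ∣ N)
    (A : ValuationSubring Kbar) (hA : A.LiesOverPrime ℓ) :
    ∃ (Y : Type) (ρ : Divisor Kbar (FN N) →+ (Y →₀ ℤ)), RedData A N ℓ ρ := by
  haveI : Fact ℓ.Prime := ⟨hℓ⟩
  by_cases h5 : 5 ≤ ℓ
  · obtain ⟨B⟩ := Base.nonempty_baseData_j N ℓ hℓ h5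
    exact ⟨_, _, redData_of_base hℓN B A hA⟩
  · have hℓ23 : ℓ = 2 ∨ ℓ = 3 := by
      have h2 := hℓ.two_le
      have h4 : ℓ ≠ 4 := by
        rintro rfl
        exact absurd hℓ (by norm_num)
      omega
    rcases hℓ23 with rfl | rfl
    · by_cases h3 : 3 ∣ N
      · obtain ⟨B⟩ := Base.nonempty_baseData_h3 N h3
        exact ⟨_, _, redData_of_base hℓN B A hA⟩
      · haveI : NeZero (N * 3) := ⟨mul_ne_zero (NeZero.ne N) (by norm_num)⟩
        have h2 : ¬ 2 ∣ N * 3 := by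
          intro h
          exact hℓN ((Nat.Coprime.dvd_mul_right (by norm_num)).mp h)
        obtain ⟨B⟩ := Base.nonempty_baseData_h3 (N * 3) (dvd_mul_left 3 N)
        exact ⟨_, _, redData_pullback Nat.prime_three h3 ⟨2, by norm_num⟩ hℓ
          (redData_of_base h2 B A hA)⟩
    · by_cases h2 : 2 ∣ N
      · obtain ⟨B⟩ := Base.nonempty_baseData_h2 N h2
        exact ⟨_, _, redData_of_base hℓN B A hA⟩
      · haveI : NeZero (N * 2) := ⟨mul_ne_zero (NeZero.ne N) (by norm_num)⟩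
        have h3 : ¬ 3 ∣ N * 2 := by
          intro h
          exact hℓN ((Nat.Coprime.dvd_mul_right (by norm_num)).mp h)
        obtain ⟨B⟩ := Base.nonempty_baseData_h2 (N * 2) (dvd_mul_left 2 N)
        exact ⟨_, _, redData_pullback Nat.prime_two h2 ⟨1, by norm_num⟩ hℓ
          (redData_of_base h3 B A hA)⟩

/-- **S37.** -/
theorem main (N p : ℕ) [NeZero N] (hcomm : HeckeOperatorsCommuteBar N) :
    letI := ModularCurve.heckeModuleBar N
    ∀ (_ : SMulCommClass (AlgebraicClosure ℚ ≃ₐ[ℚ] AlgebraicClosure ℚ) ModularCurve.HeckeAlg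
      (ModularCurve.JZero N)),
      ModularCurve.SpecializationExists (K := ℚ) (L := AlgebraicClosure ℚ) N p
        (ModularCurve.JZero N) := by
  let _ := ModularCurve.heckeModuleBar N
  intro _ ℓ hℓ hndvd A hA
  have : NeZero ℓ := ⟨hℓ.ne_zero⟩
  have hℓN : ¬ ℓ ∣ N := fun h => hndvd (h.mul_right p)
  have hℓp : ¬ ℓ ∣ p := fun h => hndvd (h.mul_left N)
  obtain ⟨φ, hφ⟩ := Fermat.Agent.Lib.Frobenius.exists_isFrobeniusAt A ℓ hℓ hA
  obtain ⟨Y, ρ, hρ⟩ := exists_redData N ℓ hℓ hℓN A hA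
  refine exists_specialization_of_aux p (JZero N) A ℓ φ hℓ hφ (rr ρ)
    (fun σ hσ x => rr_inertia hρ hℓ hA σ hσ x) (fun x => ?_) (fun x hx hr => ?_)
  · have e : (heckeGen (⟨ℓ, hℓ⟩ : Nat.Primes) • (φ • x) : JZero N) =
        heckeOperatorAlong Kbar N ℓ (φ • x) := heckeModuleBar_heckeGen_smul hcomm ⟨ℓ, hℓ⟩ (φ • x)
    have h := rr_frobenius hρ hℓ hℓN hA φ hφ x
    rw [← e] at h
    exact h
  · obtain ⟨n, hn⟩ := hx
    exact rr_injective hρ (p ^ n) (fun h => hℓp (hℓ.dvd_of_dvd_pow h)) x hn hr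

end Fermat.Agent.S37.II.WIP

end
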